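import Fermat.Agent.EC.Torsion.Count
import Fermat.Prelude.Def_GaloisRep_Residual
import Mathlib.FieldTheory.IntermediateField.Adjoin.Basic

/-!
# Torsion points as a Galois module

Consequences of `#E[n] = n²`: the rank of `E[p]`, insensitivity to extensions of algebraically
closed fields, and the finite level of the mod `n` Galois representation.
-/

set_option autoImplicit false

namespace Fermat.Agent.EC.Torsion

open WeierstrassCurve
open scoped WeierstrassCurve.Affine

section ModuleStructure

variable {K : Type*} [Field K] [DecidableEq K] [IsAlgClosed K] (W : Affine K) [W.IsElliptic]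

theorem finrank_torsionBy {p : ℕ} [Fact p.Prime] (hp : (p : K) ≠ 0)
    [Module (ZMod p) (Submodule.torsionBy ℤ W.Point p)] :
    Module.finrank (ZMod p) (Submodule.torsionBy ℤ W.Point p) = 2 := by
  have : Finite (Submodule.torsionBy ℤ W.Point p) := finite_torsionBy W hp
  have h := Module.natCard_eq_pow_finrank (K := ZMod p) (V := Submodule.torsionBy ℤ W.Point p)
  rw [natCard_torsionBy W hp, Nat.card_zmod] at h
  exact (Nat.pow_right_injective (Fact.out : p.Prime).two_le h).symm

end ModuleStructure

section BaseChange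

instance instIsEllipticBaseChange {R A : Type*} [CommRing R] [CommRing A] [Algebra R A]
    (W : WeierstrassCurve R) [W.IsElliptic] : (W⁄A).IsElliptic :=
  inferInstanceAs (W.map (algebraMap R A)).IsElliptic

universe r v w

variable {R : Type r} [CommRing R] (W : Affine R) [W.IsElliptic]
  (K : Type v) [Field K] [DecidableEq K] [IsAlgClosed K] [Algebra R K]

theorem natCard_torsionBy_baseChange {n : ℕ} (hn : (n : K) ≠ 0) :
    Nat.card (Submodule.torsionBy ℤ (W⁄K).Point n) = n ^ 2 :=
  natCard_torsionBy (W⁄K) hn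

omit [IsAlgClosed K] in
theorem finite_torsionBy_baseChange {n : ℕ} (hn : (n : K) ≠ 0) :
    Finite (Submodule.torsionBy ℤ (W⁄K).Point n) :=
  finite_torsionBy (W⁄K) hn

theorem finrank_torsionBy_baseChange {p : ℕ} [Fact p.Prime] (hp : (p : K) ≠ 0) :
    Module.finrank (ZMod p) (Submodule.torsionBy ℤ (W⁄K).Point p) = 2 :=
  finrank_torsionBy (W⁄K) hp

variable {K} {L : Type w} [Field L] [DecidableEq L] [IsAlgClosed L] [Algebra R L]

/-- Torsion points do not change when the algebraically closed base field is enlarged. -/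
theorem exists_map_eq_of_nsmul_eq_zero (f : K →ₐ[R] L) {n : ℕ} (hn : (n : K) ≠ 0)
    (Q : (W⁄L).Point) (hQ : n • Q = 0) :
    ∃ P : (W⁄K).Point, n • P = 0 ∧ Affine.Point.map f P = Q := by
  have hnL : (n : L) ≠ 0 := by
    intro h
    apply hn
    apply f.toRingHom.injective
    simpa using h
  have : Finite {Q : (W⁄L).Point // n • Q = 0} :=
    (finite_setOf_nsmul_eq_zero (W⁄L) hnL).to_subtype
  let g : {P : (W⁄K).Point // n • P = 0} → {Q : (W⁄L).Point // n • Q = 0} := fun P =>
    ⟨Affine.Point.map f P, by rw [← map_nsmul, P.2, map_zero]⟩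
  have hg : Function.Injective g := fun P P' h =>
    Subtype.ext (Affine.Point.map_injective f (congrArg Subtype.val h))
  have hb : Function.Bijective g := (Nat.bijective_iff_injective_and_card g).mpr ⟨hg, by
    rw [natCard_setOf_nsmul_eq_zero (W⁄K) hn, natCard_setOf_nsmul_eq_zero (W⁄L) hnL]⟩
  obtain ⟨P, hP⟩ := hb.2 ⟨Q, hQ⟩
  exact ⟨P, P.2, congrArg Subtype.val hP⟩

end BaseChange

section Rat

variable (W : WeierstrassCurve ℚ) [W.IsElliptic]

theorem natCard_torsionBy_algebraicClosureRat {n : ℕ} (hn : n ≠ 0) :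
    Nat.card (Submodule.torsionBy ℤ (W⁄(AlgebraicClosure ℚ)).Point n) = n ^ 2 :=
  natCard_torsionBy_baseChange W _ (Nat.cast_ne_zero.mpr hn)

/-- The mod `n` Galois representation of an elliptic curve over `ℚ` has finite image level. -/
theorem galoisFactorsThroughFiniteLevel_galoisRepModuleEnd {n : ℕ} (hn : n ≠ 0) :
    GaloisFactorsThroughFiniteLevel
      (WeierstrassCurve.Affine.Point.galoisRepModuleEnd (K := AlgebraicClosure ℚ) ℚ W n) := by
  classical
  have : Finite (Submodule.torsionBy ℤ (W⁄(AlgebraicClosure ℚ)).Point n) :=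
    finite_torsionBy_baseChange W _ (Nat.cast_ne_zero.mpr hn)
  let coords : (W⁄(AlgebraicClosure ℚ)).Point → Finset (AlgebraicClosure ℚ) := fun P =>
    match P with
    | .zero => ∅
    | .some x y _ => {x, y}
  set S : Set (AlgebraicClosure ℚ) :=
    ⋃ P : Submodule.torsionBy ℤ (W⁄(AlgebraicClosure ℚ)).Point n,
      (coords P : Set (AlgebraicClosure ℚ)) with hS
  have : Finite S := (Set.finite_iUnion fun _ => Finset.finite_toSet _).to_subtype
  refine ⟨IntermediateField.adjoin ℚ S,
    IntermediateField.finiteDimensional_adjoin fun x _ =>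
      ((AlgebraicClosure.isAlgebraic ℚ).isAlgebraic x).isIntegral,
    fun σ hσ => ?_⟩
  refine LinearMap.ext fun P => Subtype.ext ?_
  show σ • (P : (W⁄(AlgebraicClosure ℚ)).Point) = P
  have hmem : ∀ z ∈ coords P, σ z = z := fun z hz =>
    hσ z (IntermediateField.subset_adjoin ℚ S (Set.mem_iUnion.mpr ⟨P, hz⟩))
  rcases hP : (P : (W⁄(AlgebraicClosure ℚ)).Point) with _ | ⟨x, y, h⟩
  · rfl
  · rw [hP] at hmem
    rw [WeierstrassCurve.Affine.Point.algEquiv_smul_def, Affine.Point.map_some]
    simp only [Affine.Point.some.injEq]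
    exact ⟨hmem x (by simp [coords]), hmem y (by simp [coords])⟩

end Rat

end Fermat.Agent.EC.Torsion
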