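import Mathlib.AlgebraicGeometry.EllipticCurve.Affine.AddSubMap

/-!
# The addition-subtraction map on x-coordinates

For points `P`, `Q` of a Weierstrass curve, the triple
`sym2v (x(P+Q)) (x(P-Q))` is proportional to the image of `sym2v (x(P)) (x(Q))` under a map of
degree two which depends only on the `bᵢ`.
-/

set_option autoImplicit false

namespace Fermat.Agent.EC.Torsion

open WeierstrassCurve

section Ring

variable {R : Type*} [CommRing R]

/-- Coefficients of the binary quadratic form with roots `u` and `v`. -/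
def sym2v (u v : Fin 2 → R) : Fin 3 → R :=
  ![u 0 * v 0, u 0 * v 1 + u 1 * v 0, u 1 * v 1]

/-- The addition-subtraction map in terms of coordinates. -/
def asub (W : WeierstrassCurve R) (s : Fin 3 → R) : Fin 3 → R :=
  ![s 0 ^ 2 - W.b₄ * s 0 * s 2 - W.b₆ * s 1 * s 2 - W.b₈ * s 2 ^ 2,
    2 * s 1 * s 0 + W.b₂ * s 0 * s 2 + W.b₄ * s 1 * s 2 + W.b₆ * s 2 ^ 2,
    s 1 ^ 2 - 4 * s 0 * s 2]

lemma asub_eq_eval (W : WeierstrassCurve R) (s : Fin 3 → R) :
    asub W s = fun i => (addSubMap W i).eval s := by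
  funext i
  fin_cases i <;> simp [asub, addSubMap]

lemma asub_smul (W : WeierstrassCurve R) (c : R) (s : Fin 3 → R) :
    asub W (c • s) = c ^ 2 • asub W s := by
  funext i
  fin_cases i <;> simp [asub] <;> ring

lemma sym2v_smul_left (c : R) (u v : Fin 2 → R) : sym2v (c • u) v = c • sym2v u v := by
  funext i
  fin_cases i <;> simp [sym2v] <;> ring

lemma sym2v_smul_right (c : R) (u v : Fin 2 → R) : sym2v u (c • v) = c • sym2v u v := by
  funext i
  fin_cases i <;> simp [sym2v] <;> ring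

lemma sym2v_xRep {W : Affine R} (P Q : W.Point) : sym2v P.xRep Q.xRep = P.sym2x Q := rfl

lemma asub_ne_zero [IsDomain R] (W : WeierstrassCurve R) [W.IsElliptic] {s : Fin 3 → R}
    (hs : s ≠ 0) : asub W s ≠ 0 := by
  rw [asub_eq_eval]
  exact addSubMap_ne_zero W hs

end Ring

section Field

variable {K : Type*} [Field K] {W : Affine K}

lemma eq_of_sym2v_eq {u a b : Fin 2 → K} (hb : b ≠ 0) (h : sym2v u b = sym2v a b) : u = a := by
  have h0 := congrFun h 0
  have h1 := congrFun h 1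
  have h2 := congrFun h 2
  simp only [sym2v, Matrix.cons_val_zero, Matrix.cons_val_one, Matrix.cons_val] at h0 h1 h2
  by_cases hb0 : b 0 = 0
  · have hb1 : b 1 ≠ 0 := by
      intro hb1
      exact hb (funext fun i => by fin_cases i <;> assumption)
    simp only [hb0, mul_zero, add_zero, mul_eq_mul_right_iff, hb1, or_false] at h1 h2
    exact funext fun i => by fin_cases i <;> assumption
  · have e0 : u 0 = a 0 := mul_right_cancel₀ hb0 h0
    rw [e0] at h1
    have e1 : u 1 = a 1 := mul_right_cancel₀ hb0 (add_left_cancel h1)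
    exact funext fun i => by fin_cases i <;> assumption

variable [DecidableEq K]

lemma addX_add_mul_addX_sub {x₁ y₁ x₂ y₂ : K} (e₁ : W.Equation x₁ y₁) (e₂ : W.Equation x₂ y₂)
    (hx : x₁ ≠ x₂) :
    asub W ![x₁ * x₂, x₁ + x₂, 1] = (x₁ - x₂) ^ 2 •
      sym2v ![W.addX x₁ x₂ (W.slope x₁ x₂ y₁ y₂), 1]
        ![W.addX x₁ x₂ (W.slope x₁ x₂ y₁ (W.negY x₂ y₂)), 1] := by
  rw [Affine.slope_of_X_ne hx, Affine.slope_of_X_ne hx]
  have hd : x₁ - x₂ ≠ 0 := sub_ne_zero.mpr hx
  rw [Affine.equation_iff] at e₁ e₂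
  funext i
  fin_cases i
  · simp [asub, sym2v, Affine.addX, Affine.negY, WeierstrassCurve.b₄, WeierstrassCurve.b₆,
      WeierstrassCurve.b₈]
    field_simp
    linear_combination
      -((y₁ ^ 2 + W.a₁ * x₁ * y₁ + W.a₃ * y₁) + (x₁ ^ 3 + W.a₂ * x₁ ^ 2 + W.a₄ * x₁ + W.a₆)
          - 2 * (y₂ ^ 2 + W.a₁ * x₂ * y₂ + W.a₃ * y₂)
          + W.a₁ * (x₁ - x₂) * (W.a₁ * x₂ + W.a₃)
          - 2 * (W.a₂ + x₁ + x₂) * (x₁ - x₂) ^ 2) * e₁
      - ((y₂ ^ 2 + W.a₁ * x₂ * y₂ + W.a₃ * y₂) + (x₂ ^ 3 + W.a₂ * x₂ ^ 2 + W.a₄ * x₂ + W.a₆)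
          - 2 * (x₁ ^ 3 + W.a₂ * x₁ ^ 2 + W.a₄ * x₁ + W.a₆)
          - W.a₁ * (x₁ - x₂) * (W.a₁ * x₁ + W.a₃)
          - 2 * (W.a₂ + x₁ + x₂) * (x₁ - x₂) ^ 2) * e₂
  · simp [asub, sym2v, Affine.addX, Affine.negY, WeierstrassCurve.b₂, WeierstrassCurve.b₄,
      WeierstrassCurve.b₆]
    field_simp
    linear_combination -2 * e₁ - 2 * e₂
  · simp [asub, sym2v]
    ring

lemma addX_self_mul {x y : K} (e : W.Equation x y) (hy : y ≠ W.negY x y) :
    asub W ![x * x, x + x, 1] = (2 * y + W.a₁ * x + W.a₃) ^ 2 •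
      sym2v ![W.addX x x (W.slope x x y y), 1] ![1, 0] := by
  rw [Affine.slope_of_Y_ne rfl hy]
  have hu : y - W.negY x y = 2 * y + W.a₁ * x + W.a₃ := by simp [Affine.negY]; ring
  have hu0 : 2 * y + W.a₁ * x + W.a₃ ≠ 0 := hu ▸ sub_ne_zero.mpr hy
  rw [hu]
  rw [Affine.equation_iff] at e
  obtain ⟨L, hL⟩ : ∃ L, (3 * x ^ 2 + 2 * W.a₂ * x + W.a₄ - W.a₁ * y) /
      (2 * y + W.a₁ * x + W.a₃) = L := ⟨_, rfl⟩
  rw [hL]
  rw [div_eq_iff hu0] at hL
  funext i
  fin_cases i
  · simp [asub, sym2v, Affine.addX, WeierstrassCurve.b₄, WeierstrassCurve.b₆,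
      WeierstrassCurve.b₈]
    linear_combination (W.a₁ ^ 2 + 4 * (2 * x + W.a₂)) * e
      + ((3 * x ^ 2 + 2 * W.a₂ * x + W.a₄ - W.a₁ * y) + L * (2 * y + W.a₁ * x + W.a₃)
          + W.a₁ * (2 * y + W.a₁ * x + W.a₃)) * hL
  · simp [asub, sym2v, WeierstrassCurve.b₂, WeierstrassCurve.b₄, WeierstrassCurve.b₆]
    linear_combination -4 * e
  · simp [asub, sym2v]
    ring

/-- The addition-subtraction map sends `(x(P), x(Q))` to `(x(P+Q), x(P-Q))`. -/
theorem exists_asub_sym2x (W : Affine K) [W.IsElliptic] (P Q : W.Point) :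
    ∃ c : K, c ≠ 0 ∧ asub W (P.sym2x Q) = c • (P + Q).sym2x (P - Q) := by
  suffices h : ∃ c : K, asub W (P.sym2x Q) = c • (P + Q).sym2x (P - Q) by
    obtain ⟨c, hc⟩ := h
    refine ⟨c, fun h0 => ?_, hc⟩
    rw [h0, zero_smul] at hc
    exact asub_ne_zero W (Affine.Point.sym2x_ne_zero P Q) hc
  rcases P with _ | ⟨x₁, y₁, h₁⟩
  · rcases Q with _ | ⟨x₂, y₂, h₂⟩
    · refine ⟨1, ?_⟩
      rw [← Affine.Point.zero_def, sub_zero, add_zero, Affine.Point.sym2x_zero_zero]
      funext i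
      fin_cases i <;> simp [asub]
    · refine ⟨1, ?_⟩
      rw [← Affine.Point.zero_def, zero_add, zero_sub, Affine.Point.sym2x_neg_right,
        Affine.Point.sym2x_zero_some, Affine.Point.sym2x_some_some]
      funext i
      fin_cases i <;> simp [asub] <;> ring
  · rcases Q with _ | ⟨x₂, y₂, h₂⟩
    · refine ⟨1, ?_⟩
      rw [← Affine.Point.zero_def, add_zero, sub_zero, Affine.Point.sym2x_some_zero,
        Affine.Point.sym2x_some_some]
      funext i
      fin_cases i <;> simp [asub] <;> ring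
    · by_cases hx : x₁ = x₂
      · subst hx
        have key : ∃ c : K, asub W ![x₁ * x₁, x₁ + x₁, 1] =
            c • (Affine.Point.some _ _ h₁ + Affine.Point.some _ _ h₁).sym2x 0 := by
          by_cases hy : y₁ = W.negY x₁ y₁
          · refine ⟨x₁ ^ 4 - W.b₄ * x₁ ^ 2 - 2 * W.b₆ * x₁ - W.b₈, ?_⟩
            rw [Affine.Point.add_self_of_Y_eq hy, Affine.Point.sym2x_zero_zero]
            have e := (Affine.equation_iff ..).mp h₁.1
            simp only [Affine.negY] at hy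
            funext i
            fin_cases i
            · simp [asub]
              ring
            · simp [asub, WeierstrassCurve.b₂, WeierstrassCurve.b₄, WeierstrassCurve.b₆]
              linear_combination -4 * e + (2 * y₁ + W.a₁ * x₁ + W.a₃) * hy
            · simp [asub]
              ring
          · refine ⟨(2 * y₁ + W.a₁ * x₁ + W.a₃) ^ 2, ?_⟩
            rw [Affine.Point.add_self_of_Y_ne hy, ← sym2v_xRep, Affine.Point.xRep_some,
              Affine.Point.xRep_zero]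
            exact addX_self_mul h₁.1 hy
        obtain ⟨c, hc⟩ := key
        refine ⟨c, ?_⟩
        rw [Affine.Point.sym2x_some_some]
        rcases (Affine.Point.X_eq_iff (h₁ := h₂) (h₂ := h₁)).mp rfl with h' | h'
        · rw [h', sub_self]; exact hc
        · rw [h', sub_neg_eq_add, add_neg_cancel, Affine.Point.sym2x_comm]; exact hc
      · refine ⟨(x₁ - x₂) ^ 2, ?_⟩
        rw [Affine.Point.sym2x_some_some,
          sub_eq_add_neg (Affine.Point.some _ _ h₁), Affine.Point.neg_some,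
          Affine.Point.add_of_X_ne hx, Affine.Point.add_of_X_ne hx, ← sym2v_xRep,
          Affine.Point.xRep_some, Affine.Point.xRep_some]
        exact addX_add_mul_addX_sub h₁.1 h₂.1 hx

end Field

end Fermat.Agent.EC.Torsion
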