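import Fermat.Agent.EC.Torsion.AddSub
import Mathlib.AlgebraicGeometry.EllipticCurve.DivisionPolynomial.Degree

/-!
# Multiples of a point at which sufficiently many division polynomials do not vanish

Let `v k = ψ_k(P)`. If `v k ≠ 0` for `1 ≤ k ≤ M + 1`, then `x(kP) = x - v (k+1) v (k-1) / v k ^ 2`
for `1 ≤ k ≤ M`. The proof rests on the symmetry in `a, b, p` of
`(a - x(B+P)) (a - x(B-P)) (b - p) ^ 2`, which gives the elliptic relations between the `v k`.
-/

set_option autoImplicit false

namespace Fermat.Agent.EC.Torsion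

open WeierstrassCurve Polynomial
open scoped Polynomial.Bivariate

section Eval

variable {R : Type*} [CommRing R]

lemma evalEval_eq_of_mk_eq {W : Affine R} {x y : R} (h : W.Equation x y) {a b : R[X][Y]}
    (hab : Affine.CoordinateRing.mk W a = Affine.CoordinateRing.mk W b) :
    a.evalEval x y = b.evalEval x y := by
  obtain ⟨c, hc⟩ := AdjoinRoot.mk_eq_mk.mp hab
  have h0 : W.polynomial.evalEval x y = 0 := h
  have := congrArg (Polynomial.evalEval x y) hc
  rw [evalEval_sub, evalEval_mul, h0, zero_mul, sub_eq_zero] at this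
  exact this

/-- The value at `(x, y)` of the `k`-th division polynomial. -/
noncomputable def divVal (W : Affine R) (x y : R) (k : ℤ) : R :=
  (WeierstrassCurve.ψ W k).evalEval x y

variable (W : Affine R) (x y : R)

lemma divVal_zero : divVal W x y 0 = 0 := by simp [divVal]

lemma divVal_one : divVal W x y 1 = 1 := by simp [divVal]

lemma divVal_two : divVal W x y 2 = 2 * y + W.a₁ * x + W.a₃ := by
  simp [divVal, WeierstrassCurve.ψ₂, Affine.polynomialY, evalEval_C]
  ring

lemma divVal_three : divVal W x y 3 = (WeierstrassCurve.Ψ₃ W).eval x := by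
  simp [divVal, evalEval_C]

lemma divVal_four :
    divVal W x y 4 = (WeierstrassCurve.preΨ₄ W).eval x * divVal W x y 2 := by
  simp [divVal, evalEval_C]

lemma divVal_odd (m : ℤ) : divVal W x y (2 * m + 1) =
    divVal W x y (m + 2) * divVal W x y m ^ 3 -
      divVal W x y (m - 1) * divVal W x y (m + 1) ^ 3 := by
  simp [divVal, ψ_odd]

lemma divVal_even (m : ℤ) : divVal W x y (2 * m) * divVal W x y 2 =
    divVal W x y (m - 1) ^ 2 * divVal W x y m * divVal W x y (m + 2) -
      divVal W x y (m - 2) * divVal W x y m * divVal W x y (m + 1) ^ 2 := by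
  simp only [divVal, ψ_two, ← evalEval_mul, ψ_even]
  simp

variable {W x y}

lemma divVal_sq (h : W.Equation x y) (k : ℤ) :
    divVal W x y k ^ 2 = (WeierstrassCurve.ΨSq W k).eval x := by
  have := evalEval_eq_of_mk_eq (a := WeierstrassCurve.ψ W k ^ 2)
    (b := C (WeierstrassCurve.ΨSq W k)) h
    (by rw [map_pow, Affine.CoordinateRing.mk_ψ, Affine.CoordinateRing.mk_Ψ_sq])
  simpa [divVal, evalEval_C] using this

lemma eval_Φ_eq (h : W.Equation x y) (k : ℤ) :
    (WeierstrassCurve.Φ W k).eval x =
      x * divVal W x y k ^ 2 - divVal W x y (k + 1) * divVal W x y (k - 1) := by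
  have := evalEval_eq_of_mk_eq (a := WeierstrassCurve.φ W k)
    (b := C (WeierstrassCurve.Φ W k)) h (Affine.CoordinateRing.mk_φ ..)
  simpa [WeierstrassCurve.φ, divVal, evalEval_C] using this.symm

end Eval

section Sequence

variable {K : Type*} [Field K]

/-- The symmetry of the addition-subtraction relation forces `w` to be an elliptic sequence. -/
lemma sub_eq_of_symm (x : K) (w X : ℤ → K) (M : ℤ)
    (h0 : w 0 = 0) (h1 : w 1 = 1) (hw : ∀ k, 1 ≤ k → k ≤ M → w k ≠ 0)
    (hX : ∀ k, 1 ≤ k → k ≤ M → X k = x - w (k + 1) * w (k - 1) / w k ^ 2)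
    (hsym : ∀ m k, 2 ≤ k → k < m → m + 1 ≤ M →
      (X m - X (k + 1)) * (X m - X (k - 1)) * (X k - x) ^ 2 =
        (X k - X (m + 1)) * (X k - X (m - 1)) * (X m - x) ^ 2)
    (hbase : ∀ m, 2 ≤ m → m + 1 ≤ M →
      (x - X (m + 1)) * (x - X (m - 1)) * (X m - x) ^ 2 = (X 2 - X m) * w 2 ^ 2)
    (k : ℤ) (hk : 1 ≤ k) :
    ∀ m, k ≤ m → m + k ≤ M + 1 → X m - X k = -(w (m + k) * w (m - k)) / (w m * w k) ^ 2 := by
  suffices H : (∀ m, k ≤ m → m + k ≤ M + 1 →
      X m - X k = -(w (m + k) * w (m - k)) / (w m * w k) ^ 2) ∧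
      ∀ m, k + 1 ≤ m → m + (k + 1) ≤ M + 1 →
        X m - X (k + 1) = -(w (m + (k + 1)) * w (m - (k + 1))) / (w m * w (k + 1)) ^ 2 from H.1
  induction k, hk using Int.leInduction with
  | base =>
    refine ⟨fun m hm hmM => ?_, fun m hm hmM => ?_⟩
    · rw [hX 1 le_rfl (by omega), hX m hm (by omega)]
      simp [h0, h1]
      ring
    · norm_num at hm hmM ⊢
      have hb := hbase m hm (by omega)
      have hwm := hw m (by omega) (by omega)
      have hwm1 := hw (m + 1) (by omega) (by omega)
      have hwm2 := hw (m - 1) (by omega) (by omega)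
      have hw2 := hw 2 (by omega) (by omega)
      rw [hX (m + 1) (by omega) (by omega), hX (m - 1) (by omega) (by omega),
        hX m (by omega) (by omega)] at hb
      rw [hX m (by omega) (by omega)]
      rw [show m + 1 + 1 = m + 2 by ring, show m + 1 - 1 = m by ring,
        show m - 1 + 1 = m by ring, show m - 1 - 1 = m - 2 by ring] at hb
      have hne : w m ^ 2 * w (m + 1) ^ 2 * w (m - 1) ^ 2 ≠ 0 := by simp [*]
      field_simp at hb ⊢
      apply mul_left_cancel₀ hne
      linear_combination hb
  | succ k hk ih =>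
    refine ⟨ih.2, fun m hm hmM => ?_⟩
    have hs := hsym m (k + 1) (by omega) (by omega) (by omega)
    have a1 := ih.1 m (by omega) (by omega)
    have a2 := ih.2 (m + 1) (by omega) (by omega)
    have a3 := ih.2 (m - 1) (by omega) (by omega)
    rw [show m + 1 + (k + 1) = m + k + 2 by ring, show m + 1 - (k + 1) = m - k by ring] at a2
    rw [show m - 1 + (k + 1) = m + k by ring, show m - 1 - (k + 1) = m - k - 2 by ring] at a3
    rw [show k + 1 + 1 = k + 2 by ring, show k + 1 - 1 = k by ring] at hs
    rw [show k + 1 + 1 = k + 2 by ring, show m + (k + 2) = m + k + 2 by ring,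
      show m - (k + 2) = m - k - 2 by ring]
    have nm := hw m (by omega) (by omega)
    have nm1 := hw (m + 1) (by omega) (by omega)
    have nm2 := hw (m - 1) (by omega) (by omega)
    have nk := hw k (by omega) (by omega)
    have nk1 := hw (k + 1) (by omega) (by omega)
    have nk2 := hw (k + 2) (by omega) (by omega)
    have nmk := hw (m + k) (by omega) (by omega)
    have nmk' := hw (m - k) (by omega) (by omega)
    have e1 : X (k + 1) - x = -(w (k + 2) * w k) / w (k + 1) ^ 2 := by
      rw [hX (k + 1) (by omega) (by omega), show k + 1 + 1 = k + 2 by ring,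
        show k + 1 - 1 = k by ring]
      ring
    have e2 : X m - x = -(w (m + 1) * w (m - 1)) / w m ^ 2 := by
      rw [hX m (by omega) (by omega)]
      ring
    rw [a1, e1, e2, show X (k + 1) - X (m + 1) = -(X (m + 1) - X (k + 1)) by ring, a2,
      show X (k + 1) - X (m - 1) = -(X (m - 1) - X (k + 1)) by ring, a3] at hs
    set z := X m - X (k + 2)
    have hne : w (m + k) * w (m - k) * (w (k + 2) * w k) ^ 2 ≠ 0 := by simp [*]
    apply mul_right_cancel₀ hne
    field_simp at hs ⊢
    linear_combination -hs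

end Sequence

end Fermat.Agent.EC.Torsion
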